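import Fermat.Agent.AVN.Pt

/-!
# The number of torsion points from the degree of multiplication by `n`
-/

set_option autoImplicit false

noncomputable section

universe u

open CategoryTheory CategoryTheory.Limits AlgebraicGeometry NeronModelInfra GoodReductionJacobian
open Fermat.Agent.AVS

namespace Fermat.Agent.AVN

variable {K : Type u} [Field K] {A : Scheme.{u}} {f : A ⟶ Spec (CommRingCat.of K)}

theorem nsmul_eq_smul (L : RelativeGroupLaw K f) (hc : L.IsCommutative) {k : Type u} [CommRing k]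
    (i : K →+* k) (n : ℕ) (x : Pt f i) :
    letI := ptAddCommGroup L hc i
    L.nsmul _ n x = n • x := by
  induction n with
  | zero => rfl
  | succ n ih => rw [RelativeGroupLaw.nsmul_succ, ih]; rfl

theorem mapPt_nsmul (L : RelativeGroupLaw K f) {k k' : Type u} [CommRing k] [CommRing k']
    {i : K →+* k} {i' : K →+* k'} (φ : k →+* k') (h : φ.comp i = i') (n : ℕ) (x : Pt f i) :
    mapPt φ h (L.nsmul _ n x) = L.nsmul _ n (mapPt φ h x) :=
  L.nsmul_natural _ _ _ _ n x

/-- torsion points with values in a `K`-algebra. -/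
def Tor (L : RelativeGroupLaw K f) (n : ℕ) {k : Type u} [CommRing k] (i : K →+* k) : Type u :=
  {t : Pt f i // L.nsmul _ n t = L.one _}

section Main

/-- The data of a generic point `η` with values in a field `F` (the function field of `A`). -/
structure IsGen [IsIntegral A] {F : Type u} [Field F] (iF : K →+* F) (η : Pt f iF) : Prop where
  ptOf_eq : ptOf η = genericPoint A
  mono : ∀ (k' : Type u) [Field k'] (i' : K →+* k') (φ ψ : F →+* k')
    (hφ : φ.comp iF = i') (hψ : ψ.comp iF = i'), mapPt φ hφ η = mapPt ψ hψ η → φ = ψ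
  gen : ∀ (k' : Type u) [Field k'] (i' : K →+* k') (x' : Pt f i'),
    ptOf x' = genericPoint A → ∃ (φ : F →+* k') (hφ : φ.comp iF = i'), mapPt φ hφ η = x'

variable [IsIntegral A]
  {F : Type u} [Field F] [Algebra K F]
  {η : Pt f (algebraMap K F)}

/-- The field of definition of a non-generic point does not receive `F`. -/
theorem no_generic_of_nongeneric (htr : Algebra.trdeg K F < Cardinal.aleph0)
    (hη : ptOf η = genericPoint A) {ζ : A} (hζ : ζ ≠ genericPoint A)
    (γ : F →+* A.residueField ζ) (hγ : γ.comp (algebraMap K F) = resStr f ζ) : False := by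
  let F1 : Type u := A.functionField
  let _ : Algebra K F1 := (stalkStr f (genericPoint A)).toAlgebra
  let _ : Algebra K (A.presheaf.stalk ζ) := (stalkStr f ζ).toAlgebra
  let _ : Algebra K (A.residueField ζ) := (resStr f ζ).toAlgebra
  have htower : IsScalarTower K (A.presheaf.stalk ζ) F1 :=
    IsScalarTower.of_algebraMap_eq' (stalkField_compat (f := f) ζ).symm
  -- the embedding of the function field in `F`
  have hres : ∃ δ : F1 →+* F, δ.comp (stalkStr f (genericPoint A)) = algebraMap K F := by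
    obtain ⟨φ, hφ, -⟩ := exists_map_of_ptOf_eq η hη
    refine ⟨φ.comp (A.residue (genericPoint A)).hom, ?_⟩
    rw [RingHom.comp_assoc]
    exact hφ
  obtain ⟨δ, hδ⟩ := hres
  let δ' : F1 →ₐ[K] F := { δ with commutes' := fun c => DFunLike.congr_fun hδ c }
  have htr1 : Algebra.trdeg K F1 < Cardinal.aleph0 :=
    (trdeg_le_of_injective δ' δ'.injective).trans_lt htr
  let γ' : F →ₐ[K] A.residueField ζ := { γ with commutes' := fun c => DFunLike.congr_fun hγ c }
  let q : A.presheaf.stalk ζ →ₐ[K] A.residueField ζ :=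
    { (A.residue ζ).hom with commutes' := fun c => rfl }
  exact no_embedding_residue htr1 q (A.residue_surjective ζ) (residue_not_injective hζ)
    (γ'.comp δ')

variable (L : RelativeGroupLaw K f) (n : ℕ)

/-- a division point of `n η` is generic. -/
theorem ptOf_eq_generic (htr : Algebra.trdeg K F < Cardinal.aleph0)
    (hη : IsGen (algebraMap K F) η)
    (β : F →+* F) (hβK : β.comp (algebraMap K F) = algebraMap K F)
    (hβ : mapPt β hβK η = L.nsmul _ n η) {Ω : Type u} [Field Ω] {iΩ : K →+* Ω}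
    (ι : F →+* Ω) (hΩ : ι.comp (algebraMap K F) = iΩ) (x' : Pt f iΩ)
    (hx' : L.nsmul _ n x' = mapPt ι hΩ (L.nsmul _ n η)) :
    ptOf x' = genericPoint A := by
  by_contra hζ
  obtain ⟨φ, hφ, hφx⟩ := exists_map_resPt x'
  have h1 : ptOf (L.nsmul _ n (resPt f (ptOf x'))) = genericPoint A := by
    rw [← ptOf_mapPt φ hφ, mapPt_nsmul, hφx, hx', ptOf_mapPt, ← hβ, ptOf_mapPt, hη.ptOf_eq]
  obtain ⟨γ, hγ, -⟩ := hη.gen _ _ _ h1
  exact no_generic_of_nongeneric htr hη.ptOf_eq hζ γ hγ

/-- **Torsion points with values in an algebraically closed extension of the function field.** -/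
theorem natCard_tor_eq (hc : L.IsCommutative) (htr : Algebra.trdeg K F < Cardinal.aleph0)
    (hη : IsGen (algebraMap K F) η)
    (β : F →+* F) (hβK : β.comp (algebraMap K F) = algebraMap K F)
    (hβ : mapPt β hβK η = L.nsmul _ n η)
    (hd : (Module.finrank β.fieldRange F : F) ≠ 0)
    {Ω : Type u} [Field Ω] [IsAlgClosed Ω] {iΩ : K →+* Ω}
    (ι : F →+* Ω) (hΩ : ι.comp (algebraMap K F) = iΩ) :
    Nat.card (Tor L n iΩ) = Module.finrank β.fieldRange F := by
  let _ : Algebra β.fieldRange Ω := (ι.comp β.fieldRange.subtype).toAlgebra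
  have hfin : FiniteDimensional β.fieldRange F := by
    apply FiniteDimensional.of_finrank_pos
    rcases Nat.eq_zero_or_pos (Module.finrank β.fieldRange F) with h | h
    · rw [h, Nat.cast_zero] at hd
      exact absurd rfl hd
    · exact h
  have hd' : (Module.finrank β.fieldRange F : β.fieldRange) ≠ 0 := by
    intro h
    apply hd
    have := congrArg (algebraMap β.fieldRange F) h
    rwa [map_natCast, map_zero] at this
  rw [← natCard_emb β.fieldRange F Ω hd']
  symm
  let _ := ptAddCommGroup L hc iΩ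
  have hns : ∀ x : Pt f iΩ, L.nsmul _ n x = n • x := fun x => nsmul_eq_smul L hc iΩ n x
  have hK : ∀ σ : F →ₐ[β.fieldRange] Ω, (σ : F →+* Ω).comp (algebraMap K F) = iΩ := by
    intro σ
    have h1 : ∀ c : K, algebraMap K F c ∈ β.fieldRange := fun c =>
      ⟨algebraMap K F c, DFunLike.congr_fun hβK c⟩
    rw [← hΩ]
    ext c
    exact σ.commutes ⟨algebraMap K F c, h1 c⟩
  have hσβ : ∀ σ : F →ₐ[β.fieldRange] Ω, (σ : F →+* Ω).comp β = ι.comp β := by
    intro σ
    ext c
    exact σ.commutes ⟨β c, ⟨c, rfl⟩⟩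
  have hnσ : ∀ σ : F →ₐ[β.fieldRange] Ω, L.nsmul _ n (mapPt (σ : F →+* Ω) (hK σ) η) =
      mapPt ι hΩ (L.nsmul _ n η) := by
    intro σ
    rw [← mapPt_nsmul, ← hβ, mapPt_mapPt, mapPt_mapPt]
    exact mapPt_congr (hσβ σ) _ _ _
  let Θ : (F →ₐ[β.fieldRange] Ω) → Tor L n iΩ := fun σ =>
    ⟨mapPt (σ : F →+* Ω) (hK σ) η - mapPt ι hΩ η, by
      rw [hns, nsmul_sub, ← hns, ← hns, hnσ, ← mapPt_nsmul, sub_self]
      rfl⟩
  apply Nat.card_congr
  refine Equiv.ofBijective Θ ⟨?_, ?_⟩
  · intro σ τ h
    have h1 : mapPt (σ : F →+* Ω) (hK σ) η - mapPt ι hΩ η =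
        mapPt (τ : F →+* Ω) (hK τ) η - mapPt ι hΩ η := congrArg Subtype.val h
    have h2 := sub_left_injective h1
    have h3 := hη.mono _ _ _ _ _ _ h2
    ext z
    exact DFunLike.congr_fun h3 z
  · rintro ⟨t, ht⟩
    have hx : L.nsmul _ n (mapPt ι hΩ η + t) = mapPt ι hΩ (L.nsmul _ n η) := by
      rw [hns, nsmul_add, ← hns, ← hns, ht, mapPt_nsmul]
      exact add_zero _
    have hgenx := ptOf_eq_generic L n htr hη β hβK hβ ι hΩ _ hx
    obtain ⟨σ, hσ, hσx⟩ := hη.gen _ _ _ hgenx
    have hσβ' : σ.comp β = ι.comp β := by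
      apply hη.mono Ω iΩ (σ.comp β) (ι.comp β) (by rw [RingHom.comp_assoc, hβK, hσ])
        (by rw [RingHom.comp_assoc, hβK, hΩ])
      rw [← mapPt_mapPt β hβK σ hσ, ← mapPt_mapPt β hβK ι hΩ, hβ, mapPt_nsmul, hσx, hx]
    let σ' : F →ₐ[β.fieldRange] Ω :=
      { σ with
        commutes' := by
          rintro ⟨_, c, rfl⟩
          exact DFunLike.congr_fun hσβ' c }
    refine ⟨σ', ?_⟩
    apply Subtype.ext
    change mapPt (σ' : F →+* Ω) (hK σ') η - mapPt ι hΩ η = t
    have : mapPt (σ' : F →+* Ω) (hK σ') η = mapPt σ hσ η := mapPt_congr rfl _ _ _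
    rw [this, hσx, add_sub_cancel_left]

end Main

/-- Torsion points with values in an algebraically closed field are constant. -/
theorem natCard_tor_const [IsAlgClosed K] (L : RelativeGroupLaw K f) (n : ℕ) {Ω : Type u}
    [Field Ω] [IsAlgClosed Ω] (iΩ : K →+* Ω) [Finite (Tor L n iΩ)] :
    Nat.card (Tor L n (RingHom.id K)) = Nat.card (Tor L n iΩ) := by
  let Θ : Tor L n (RingHom.id K) → Tor L n iΩ := fun t =>
    ⟨mapPt iΩ (RingHom.comp_id iΩ) t.1, by rw [← mapPt_nsmul, t.2, mapPt_one]⟩
  refine Nat.card_congr (Equiv.ofBijective Θ ⟨?_, ?_⟩)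
  · intro s t h
    apply Subtype.ext
    exact mapPt_injective iΩ (RingHom.comp_id iΩ) (congrArg Subtype.val h)
  · rintro ⟨t, ht⟩
    obtain ⟨φ, hφ, hφt⟩ := exists_map_resPt t
    generalize ptOf t = ζ at φ hφ hφt
    let κ : Type u := A.residueField ζ
    let _ : Algebra K κ := (resStr f ζ).toAlgebra
    let _ : Algebra K Ω := iΩ.toAlgebra
    by_cases halg : Algebra.IsAlgebraic K κ
    · have hbij : Function.Bijective (algebraMap K κ) :=
        IsAlgClosed.algebraMap_bijective_of_isIntegral
      let e : K ≃+* κ := RingEquiv.ofBijective (algebraMap K κ) hbij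
      have he : (e : K →+* κ) = resStr f ζ := rfl
      have h1 : (e.symm : κ →+* K).comp (resStr f ζ) = RingHom.id K := by
        rw [← he]
        ext c
        exact e.symm_apply_apply c
      have h2 : iΩ.comp (e.symm : κ →+* K) = φ := by
        ext z
        have h3 : iΩ (e.symm z) = φ (resStr f ζ (e.symm z)) := by
          rw [← hφ]; rfl
        refine h3.trans ?_
        rw [← he]
        exact congrArg φ (e.apply_symm_apply z)
      let t0 : Pt f (RingHom.id K) := mapPt (e.symm : κ →+* K) h1 (resPt f ζ)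
      have h4 : mapPt iΩ (RingHom.comp_id iΩ) t0 = t := by
        rw [mapPt_mapPt, ← hφt]
        exact mapPt_congr h2 _ _ _
      refine ⟨⟨t0, ?_⟩, Subtype.ext h4⟩
      apply mapPt_injective iΩ (RingHom.comp_id iΩ)
      rw [mapPt_nsmul, h4, ht, mapPt_one]
    · exfalso
      have hres : L.nsmul _ n (resPt f ζ) = L.one _ := by
        apply mapPt_injective φ hφ
        rw [mapPt_nsmul, hφt, ht, mapPt_one]
      have hinf : Infinite (κ →ₐ[K] Ω) := by
        have : Infinite K := IsAlgClosed.instInfinite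
        let j : κ →ₐ[K] Ω := { φ with commutes' := fun c => DFunLike.congr_fun hφ c }
        exact infinite_algHom j halg
      have hψ : ∀ ψ : κ →ₐ[K] Ω, (ψ : κ →+* Ω).comp (resStr f ζ) = iΩ := by
        intro ψ
        ext c
        exact ψ.commutes c
      let Ψ : (κ →ₐ[K] Ω) → Tor L n iΩ := fun ψ =>
        ⟨mapPt (ψ : κ →+* Ω) (hψ ψ) (resPt f ζ), by rw [← mapPt_nsmul, hres, mapPt_one]⟩
      have hΨ : Function.Injective Ψ := by
        intro ψ ψ' h
        have h1 := mapPt_resPt_injective ζ (hψ ψ) (hψ ψ') (congrArg Subtype.val h)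
        ext z
        exact DFunLike.congr_fun h1 z
      exact not_finite_iff_infinite.2 (Infinite.of_injective Ψ hΨ) inferInstance

theorem natCard_torsionPoint_congr {T : Scheme.{u}} (L : RelativeGroupLaw K f) (n : ℕ)
    {t t' : T ⟶ Spec (CommRingCat.of K)} (h : t = t') :
    Nat.card {x : SchemeHomOver t f // L.IsTorsionPoint t n x} =
      Nat.card {x : SchemeHomOver t' f // L.IsTorsionPoint t' n x} := by
  subst h; rfl

/-- **[F-COUNT]** The number of `n`-torsion points is the degree of multiplication by `n`, if that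
degree is nonzero in `K`. -/
theorem natCard_torsion [IsAlgClosed K] [IsIntegral A] (L : RelativeGroupLaw K f)
    (hc : L.IsCommutative) (n : ℕ) {F : Type u} [Field F] [Algebra K F]
    (htr : Algebra.trdeg K F < Cardinal.aleph0) {η : Pt f (algebraMap K F)}
    (hη : IsGen (algebraMap K F) η)
    (β : F →+* F) (hβK : β.comp (algebraMap K F) = algebraMap K F)
    (hβ : mapPt β hβK η = L.nsmul _ n η)
    (hd : (Module.finrank β.fieldRange F : F) ≠ 0) :
    Nat.card {x : SchemeHomOver (𝟙 (Spec (CommRingCat.of K))) f //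
        L.IsTorsionPoint (𝟙 (Spec (CommRingCat.of K))) n x} =
      Module.finrank β.fieldRange F := by
  let Ω := AlgebraicClosure F
  have h1 : Nat.card (Tor L n ((algebraMap F Ω).comp (algebraMap K F))) =
      Module.finrank β.fieldRange F :=
    natCard_tor_eq L n hc htr hη β hβK hβ hd (algebraMap F Ω) rfl
  have hpos : Module.finrank β.fieldRange F ≠ 0 := by
    intro h
    rw [h, Nat.cast_zero] at hd
    exact hd rfl
  have hfin : Finite (Tor L n ((algebraMap F Ω).comp (algebraMap K F))) := by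
    apply Nat.finite_of_card_ne_zero
    rw [h1]; exact hpos
  rw [← h1, ← natCard_tor_const L n ((algebraMap F Ω).comp (algebraMap K F))]
  have hid : 𝟙 (Spec (CommRingCat.of K)) = Spec.map (CommRingCat.ofHom (RingHom.id K)) := by
    have : CommRingCat.ofHom (RingHom.id K) = 𝟙 _ := rfl
    rw [this, Spec.map_id]
  exact natCard_torsionPoint_congr L n hid

end Fermat.Agent.AVN

end
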