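import Mathlib

/-!
# Field-theoretic lemmas for the count of torsion points

* `no_embedding_residue`: a proper quotient of a domain of finite transcendence degree does not
  receive the fraction field.
* `infinite_algHom`: a non-algebraic extension has infinitely many embeddings.
-/

set_option autoImplicit false

namespace Fermat.Agent.AVN

universe u

open Cardinal

/-- If `R` is a domain over `K` with fraction field `F` of finite transcendence degree, and `κ` is
a proper quotient of `R`, then `F` does not embed in `κ` over `K`. -/
theorem no_embedding_residue {K R F κ : Type u} [Field K] [CommRing R] [IsDomain R] [Field F]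
    [Field κ] [Algebra K R] [Algebra K F] [Algebra K κ] [Algebra R F] [IsScalarTower K R F]
    [IsFractionRing R F] (htr : Algebra.trdeg K F < Cardinal.aleph0) (q : R →ₐ[K] κ)
    (hq : Function.Surjective q) (hker : ¬ Function.Injective q) (γ : F →ₐ[K] κ) : False := by
  classical
  have h1 : Algebra.trdeg K F ≤ Algebra.trdeg K κ :=
    trdeg_le_of_injective γ γ.injective
  have h2 : Algebra.trdeg K κ ≤ Algebra.trdeg K R := trdeg_le_of_surjective q hq
  have h3 : Algebra.trdeg K R ≤ Algebra.trdeg K F :=
    trdeg_le_of_injective (IsScalarTower.toAlgHom K R F) (IsFractionRing.injective R F)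
  obtain ⟨ι, x, hx⟩ := exists_isTranscendenceBasis' K κ
  have hcard : #ι = Algebra.trdeg K κ := hx.cardinalMk_eq_trdeg
  have hfin : Finite ι := by
    rw [← Cardinal.lt_aleph0_iff_finite, hcard]
    exact (h2.trans h3).trans_lt htr
  choose b hb using fun i => hq (x i)
  have hbx : q ∘ b = x := funext hb
  have hbi : AlgebraicIndependent K b := by
    apply AlgebraicIndependent.of_comp q
    rw [hbx]; exact hx.1
  have hbT : IsTranscendenceBasis K b :=
    hbi.isTranscendenceBasis_of_trdeg_le_of_finite (by rw [hcard]; exact h3.trans h1)
  obtain ⟨a, ha0, ha⟩ : ∃ a : R, a ≠ 0 ∧ q a = 0 := by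
    by_contra hcon
    push Not at hcon
    apply hker
    rw [injective_iff_map_eq_zero]
    intro a ha
    by_contra h0
    exact hcon a h0 ha
  have halg := hbT.isAlgebraic
  have ha' : IsAlgebraic (Algebra.adjoin K (Set.range b)) a := halg.isAlgebraic a
  obtain ⟨c, hc0, y, hcy⟩ := ha'.exists_nonzero_dvd (mem_nonZeroDivisors_of_ne_zero ha0)
  have hqc : q (c : R) = 0 := by
    have : (c : R) = a * y := hcy
    rw [this, map_mul, ha, zero_mul]
  have hcmem : (c : R) ∈ (MvPolynomial.aeval b : MvPolynomial ι K →ₐ[K] R).range := by
    rw [← Algebra.adjoin_range_eq_range_aeval]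
    exact c.2
  obtain ⟨P, hP⟩ := hcmem
  have hP' : MvPolynomial.aeval b P = (c : R) := hP
  have hP0 : MvPolynomial.aeval x P = 0 := by
    have : MvPolynomial.aeval (q ∘ b) P = q (MvPolynomial.aeval b P) := by
      have h := MvPolynomial.comp_aeval (f := b) q
      exact (DFunLike.congr_fun h P).symm
    rw [← hbx, this, hP', hqc]
  have hPz : P = 0 := by
    have := (injective_iff_map_eq_zero _).1 hx.1 P hP0
    exact this
  apply hc0
  ext
  rw [← hP', hPz]
  simp

/-- A non-algebraic extension of an infinite field has infinitely many embeddings in an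
algebraically closed extension. -/
theorem infinite_algHom {K κ Ω : Type u} [Field K] [Infinite K] [Field κ] [Algebra K κ] [Field Ω]
    [IsAlgClosed Ω] [Algebra K Ω] (j : κ →ₐ[K] Ω) (h : ¬ Algebra.IsAlgebraic K κ) :
    Infinite (κ →ₐ[K] Ω) := by
  classical
  obtain ⟨ι, x, hx⟩ := exists_isTranscendenceBasis' K κ
  have hne : Nonempty ι := by
    by_contra hcon
    rw [not_nonempty_iff] at hcon
    exact h (hx.isEmpty_iff_isAlgebraic.1 hcon)
  obtain ⟨i0⟩ := hne
  -- the shifted families
  let s : K → MvPolynomial ι K →ₐ[K] Ω := fun c =>
    MvPolynomial.aeval (fun i => j (x i) + algebraMap K Ω c)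
  have hs : ∀ c, Function.Injective (s c) := by
    intro c
    let sh : K → MvPolynomial ι K →ₐ[K] MvPolynomial ι K := fun c =>
      MvPolynomial.aeval (fun i => MvPolynomial.X i + MvPolynomial.C c)
    have hsh : Function.Injective (sh c) := by
      apply Function.LeftInverse.injective (g := sh (-c))
      intro p
      have : (sh (-c)).comp (sh c) = AlgHom.id K _ := by
        ext i
        simp [sh]
      exact DFunLike.congr_fun this p
    have hcomp : s c = (j.comp (MvPolynomial.aeval x)).comp (sh c) := by
      ext i
      simp [s, sh, MvPolynomial.algebraMap_eq]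
    rw [hcomp]
    have hinj : Function.Injective (MvPolynomial.aeval x : MvPolynomial ι K →ₐ[K] κ) := hx.1
    exact (j.injective.comp hinj).comp hsh
  have key : ∀ c, ∃ φ : κ →ₐ[K] Ω, φ (x i0) = j (x i0) + algebraMap K Ω c := by
    intro c
    let _ : Algebra (MvPolynomial ι K) κ := (MvPolynomial.aeval x).toRingHom.toAlgebra
    let _ : Algebra (MvPolynomial ι K) Ω := (s c).toRingHom.toAlgebra
    have : IsScalarTower K (MvPolynomial ι K) κ := IsScalarTower.of_algebraMap_eq' (by
      ext a
      simp [RingHom.algebraMap_toAlgebra])
    have : IsScalarTower K (MvPolynomial ι K) Ω := IsScalarTower.of_algebraMap_eq' (by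
      ext a
      simp [RingHom.algebraMap_toAlgebra])
    have : FaithfulSMul (MvPolynomial ι K) κ :=
      (faithfulSMul_iff_algebraMap_injective _ _).2 hx.1
    have : FaithfulSMul (MvPolynomial ι K) Ω :=
      (faithfulSMul_iff_algebraMap_injective _ _).2 (hs c)
    have : Algebra.IsAlgebraic (MvPolynomial ι K) κ := by
      have h1 := hx.isAlgebraic
      constructor
      intro a
      obtain ⟨p, hp0, hp⟩ := h1.isAlgebraic a
      let e : MvPolynomial ι K →+* Algebra.adjoin K (Set.range x) :=
        (MvPolynomial.aeval x).toRingHom.codRestrict (Algebra.adjoin K (Set.range x)).toSubring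
          (fun y => by
            rw [Subalgebra.mem_toSubring, Algebra.adjoin_range_eq_range_aeval]
            exact ⟨y, rfl⟩)
      have he : Function.Surjective e := by
        rintro ⟨y, hy⟩
        rw [Algebra.adjoin_range_eq_range_aeval] at hy
        obtain ⟨z, hz⟩ := hy
        exact ⟨z, Subtype.ext hz⟩
      obtain ⟨P, hP⟩ := Polynomial.map_surjective e he p
      refine ⟨P, ?_, ?_⟩
      · rintro rfl
        apply hp0
        rw [← hP, Polynomial.map_zero]
      · have h2 : (algebraMap (Algebra.adjoin K (Set.range x)) κ).comp e =
            algebraMap (MvPolynomial ι K) κ := rfl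
        rw [Polynomial.aeval_def, ← h2, ← Polynomial.eval₂_map, hP]
        exact hp
    let φ : κ →ₐ[MvPolynomial ι K] Ω := IsAlgClosed.lift
    refine ⟨φ.restrictScalars K, ?_⟩
    have h1 : algebraMap (MvPolynomial ι K) κ (MvPolynomial.X i0) = x i0 := by
      simp [RingHom.algebraMap_toAlgebra]
    have h2 : algebraMap (MvPolynomial ι K) Ω (MvPolynomial.X i0) =
        j (x i0) + algebraMap K Ω c := by
      simp [RingHom.algebraMap_toAlgebra, s]
    rw [AlgHom.restrictScalars_apply, ← h1, φ.commutes, h2, h1]
  choose φ hφ using key
  refine Infinite.of_injective φ fun c c' hcc => ?_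
  have := hφ c
  rw [hcc, hφ c'] at this
  exact ((algebraMap K Ω).injective (add_left_cancel this)).symm

/-- If the degree is nonzero in the field, the extension is separable. -/
theorem isSeparable_of_finrank_ne_zero {F E : Type*} [Field F] [Field E] [Algebra F E]
    [FiniteDimensional F E] (h : (Module.finrank F E : F) ≠ 0) : Algebra.IsSeparable F E := by
  obtain ⟨q, hq⟩ := ExpChar.exists F
  rw [← separableClosure.eq_top_iff]
  have : ExpChar (separableClosure F E) q := inferInstance
  obtain ⟨m, hm⟩ := IsPurelyInseparable.finrank_eq_pow (separableClosure F E) E q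
  have htower : Module.finrank F (separableClosure F E) *
      Module.finrank (separableClosure F E) E = Module.finrank F E :=
    Module.finrank_mul_finrank _ _ _
  have hone : Module.finrank (separableClosure F E) E = 1 := by
    rcases hq with _ | hp
    · rw [hm, one_pow]
    · rcases Nat.eq_zero_or_pos m with h0 | h0
      · rw [hm, h0, pow_zero]
      · exfalso
        apply h
        rw [← htower, hm]
        push_cast
        rw [CharP.cast_eq_zero F q, zero_pow h0.ne', mul_zero]
  have := IntermediateField.finrank_eq_one_iff_eq_top.1 hone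
  exact this

/-- The number of embeddings of a finite extension whose degree is nonzero in the field. -/
theorem natCard_emb (F E Ω : Type*) [Field F] [Field E] [Algebra F E]
    [FiniteDimensional F E] [Field Ω] [IsAlgClosed Ω] [Algebra F Ω]
    (h : (Module.finrank F E : F) ≠ 0) : Nat.card (E →ₐ[F] Ω) = Module.finrank F E := by
  have := isSeparable_of_finrank_ne_zero h
  exact AlgHom.natCard_of_splits F E Ω (fun _ => IsAlgClosed.splits _)

end Fermat.Agent.AVN
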