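import Fermat.Agent.AVN.Count
import Fermat.Agent.AVS.Res

/-!
# The number of torsion points from the degree statement (adapter)
-/

set_option autoImplicit false

noncomputable section

universe u

open CategoryTheory CategoryTheory.Limits AlgebraicGeometry NeronModelInfra GoodReductionJacobian
open Fermat.Agent.AVS

namespace Fermat.Agent.AVN

variable {K : Type u} [Field K] {A : Scheme.{u}} {f : A ⟶ Spec (CommRingCat.of K)}

/-- A point with center the generic point and field of definition everything is generic in the
sense of `IsGen`. -/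
theorem isGen_of_fdPt_eq_top [IsIntegral A] {F : Type u} [Field F] [Algebra K F]
    (η : Pt f (algebraMap K F)) (h1 : center η = genericPoint A) (h2 : fdPt η = ⊤) :
    IsGen (algebraMap K F) η := by
  obtain ⟨α, hα, hη⟩ := exists_resHom η h1
  have hsurj : Function.Surjective α := by
    intro c
    have hc : c ∈ fdPt η := by rw [h2]; trivial
    exact (mem_fdPt_of_eq α hα hη).1 hc
  refine ⟨h1, ?_, ?_⟩
  · intro k' _ i' φ ψ hφ hψ h
    rw [← hη, mapPt_mapPt, mapPt_mapPt] at h
    have h3 := resHom_unique _ _ h
    ext c
    obtain ⟨a, rfl⟩ := hsurj c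
    exact DFunLike.congr_fun h3 a
  · intro k' _ i' x' hx'
    obtain ⟨γ, hγ, hx⟩ := exists_resHom x' hx'
    let e : A.residueField (genericPoint A) ≃+* F :=
      RingEquiv.ofBijective α ⟨α.injective, hsurj⟩
    have he : (γ.comp (e.symm : F →+* A.residueField (genericPoint A))).comp α = γ := by
      ext a
      exact congrArg γ (e.symm_apply_apply a)
    have hcomp : (γ.comp (e.symm : F →+* A.residueField (genericPoint A))).comp
        (algebraMap K F) = i' := by
      rw [← hα, ← RingHom.comp_assoc, he, hγ]
    refine ⟨γ.comp (e.symm : F →+* A.residueField (genericPoint A)), hcomp, ?_⟩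
    rw [← hx, ← hη, mapPt_mapPt]
    exact mapPt_congr he _ _ _

/-- **[F-COUNT], final form.** -/
theorem natCard_torsion_of_deg [IsAlgClosed K] [IsIntegral A] (L : RelativeGroupLaw K f)
    (hc : L.IsCommutative) (g n : ℕ) (hn : (n : K) ≠ 0) {F : Type u} [Field F] [Algebra K F]
    (htr : Algebra.trdeg K F = g) (η : Pt f (algebraMap K F)) (hη : IsGen (algebraMap K F) η)
    (β : F →ₐ[K] F)
    (hβ : mapPt (β : F →+* F) β.comp_algebraMap η = L.nsmul _ n η)
    (hdeg : Module.finrank β.fieldRange F = n ^ (2 * g)) :
    Nat.card {x : SchemeHomOver (𝟙 (Spec (CommRingCat.of K))) f //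
        L.IsTorsionPoint (𝟙 (Spec (CommRingCat.of K))) n x} = n ^ (2 * g) := by
  have hr : Module.finrank (β : F →+* F).fieldRange F = n ^ (2 * g) := hdeg
  rw [← hr]
  apply natCard_torsion L hc n (htr ▸ Cardinal.natCast_lt_aleph0) hη (β : F →+* F)
    β.comp_algebraMap hβ
  rw [hr]
  push_cast
  apply pow_ne_zero
  intro h
  apply hn
  apply (algebraMap K F).injective
  rw [map_natCast, h, map_zero]

end Fermat.Agent.AVN

end
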