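import Fermat.Agent.AVN.Final
import Fermat.Agent.AVS.Inst
import Fermat.Agent.AVn.Stmts

/-!
# S26 from the degree statement for the abstract variety
-/

set_option autoImplicit false

noncomputable section

universe u

open CategoryTheory CategoryTheory.Limits AlgebraicGeometry NeronModelInfra GoodReductionJacobian
open Fermat.Agent.AVS

namespace Fermat.Agent.AVN

variable {K : Type u} [Field K] {A : Scheme.{u}} {f : A ⟶ Spec (CommRingCat.of K)}

/-- The number of `n`-torsion points from `DegStmt`. -/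
theorem natCard_of_degStmt [IsAlgClosed K] [IsIntegral A] [IsProper f] (L : RelativeGroupLaw K f)
    (hc : L.IsCommutative) (g : ℕ) (hI : Input f g)
    (hD : (avar f L hc g hI).DegStmt) (n : ℕ) (hn : (n : K) ≠ 0) :
    Nat.card {x : SchemeHomOver (𝟙 (Spec (CommRingCat.of K))) f //
        L.IsTorsionPoint (𝟙 (Spec (CommRingCat.of K))) n x} = n ^ (2 * g) := by
  have hn0 : 0 < n := by
    rcases Nat.eq_zero_or_pos n with h | h
    · rw [h, Nat.cast_zero] at hn
      exact absurd rfl hn
    · exact h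
  obtain ⟨β, hβ, hdeg⟩ := hD n hn0
  let 𝒜 := avar f L hc g hI
  have htr : Algebra.trdeg K 𝒜.F = g := 𝒜.trdeg_F
  have hcen : center (B := 𝒜.F) 𝒜.gen = genericPoint A :=
    Scheme.fromSpecStalk_closedPoint (x := genericPoint A)
  have hfd : fdPt (Ω := 𝒜.F) 𝒜.gen = ⊤ := 𝒜.fd_gen
  have hη := isGen_of_fdPt_eq_top (F := 𝒜.F) 𝒜.gen hcen hfd
  refine natCard_torsion_of_deg (F := 𝒜.F) L hc g n hn htr 𝒜.gen hη β ?_ hdeg
  refine Eq.trans hβ ?_
  exact (nsmul_eq_smul L hc _ n _).symm

end Fermat.Agent.AVN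

end
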