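import Fermat.Agent.AVS.Points
import Fermat.Agent.AVN.Field

/-!
# Field-valued points and their fields of definition
-/

set_option autoImplicit false

noncomputable section

universe u

open CategoryTheory CategoryTheory.Limits AlgebraicGeometry NeronModelInfra GoodReductionJacobian
open Fermat.Agent.AVS

namespace Fermat.Agent.AVN

variable {K : Type u} [Field K] {A : Scheme.{u}} {f : A ⟶ Spec (CommRingCat.of K)}

/-- the underlying point of a field-valued point. -/
def ptOf {k : Type u} [Field k] {i : K →+* k} (x : Pt f i) : A :=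
  x.1 (IsLocalRing.closedPoint k)

theorem ptOf_mapPt {k k' : Type u} [Field k] [Field k'] {i : K →+* k} {i' : K →+* k'}
    (φ : k →+* k') (h : φ.comp i = i') (x : Pt f i) : ptOf (mapPt φ h x) = ptOf x := by
  refine (Scheme.Hom.comp_apply (Spec.map (CommRingCat.ofHom φ)) x.1 _).trans ?_
  exact congrArg x.1 (Subsingleton.elim (α := Spec (CommRingCat.of k)) _ _)

variable (f) in
/-- structure map of the stalk at `ζ`. -/
def stalkStr (ζ : A) : K →+* A.presheaf.stalk ζ :=
  (Spec.preimage (A.fromSpecStalk ζ ≫ f)).hom

theorem specMap_stalkStr (ζ : A) :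
    Spec.map (CommRingCat.ofHom (stalkStr f ζ)) = A.fromSpecStalk ζ ≫ f := by
  unfold stalkStr
  rw [CommRingCat.ofHom_hom, Spec.map_preimage]

variable (f) in
/-- structure map of the residue field at `ζ`. -/
def resStr (ζ : A) : K →+* A.residueField ζ :=
  (A.residue ζ).hom.comp (stalkStr f ζ)

theorem specMap_resStr (ζ : A) :
    Spec.map (CommRingCat.ofHom (resStr f ζ)) = A.fromSpecResidueField ζ ≫ f := by
  unfold resStr
  rw [CommRingCat.ofHom_comp, Spec.map_comp, specMap_stalkStr, CommRingCat.ofHom_hom,
    Scheme.fromSpecResidueField, Category.assoc]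

variable (f) in
/-- the canonical point with values in the stalk. -/
def stalkPt (ζ : A) : Pt f (stalkStr f ζ) :=
  ⟨A.fromSpecStalk ζ, (specMap_stalkStr ζ).symm⟩

variable (f) in
/-- the canonical point with values in the residue field. -/
def resPt (ζ : A) : Pt f (resStr f ζ) :=
  ⟨A.fromSpecResidueField ζ, (specMap_resStr ζ).symm⟩

@[simp] theorem ptOf_resPt (ζ : A) : ptOf (resPt f ζ) = ζ :=
  Scheme.fromSpecResidueField_apply _ _

/-- Every field-valued point comes from the residue field. -/
theorem exists_map_resPt {k : Type u} [Field k] {i : K →+* k} (x : Pt f i) :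
    ∃ (φ : A.residueField (ptOf x) →+* k) (h : φ.comp (resStr f (ptOf x)) = i),
      mapPt φ h (resPt f (ptOf x)) = x := by
  obtain ⟨ζ, hζ, φ, hφ⟩ : ∃ ζ : A, ζ = ptOf x ∧ ∃ φ : A.residueField ζ ⟶ CommRingCat.of k,
      Spec.map φ ≫ A.fromSpecResidueField ζ = x.1 :=
    ⟨(Scheme.SpecToEquivOfField k A x.1).1, rfl, (Scheme.SpecToEquivOfField k A x.1).2,
      (Scheme.SpecToEquivOfField k A).left_inv x.1⟩
  rw [← hζ]
  have h : φ.hom.comp (resStr f ζ) = i := by
    have h1 : Spec.map (CommRingCat.ofHom (φ.hom.comp (resStr f ζ))) =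
        Spec.map (CommRingCat.ofHom i) := by
      rw [CommRingCat.ofHom_comp, Spec.map_comp, specMap_resStr, CommRingCat.ofHom_hom,
        ← Category.assoc, hφ, x.2]
    have h2 := Spec.map_injective h1
    exact congrArg CommRingCat.Hom.hom h2
  exact ⟨φ.hom, h, Subtype.ext hφ⟩

/-- a map out of the residue field is determined by its effect on the canonical point. -/
theorem mapPt_resPt_injective (ζ : A) {k : Type u} [Field k] {i : K →+* k}
    {φ ψ : A.residueField ζ →+* k} (hφ : φ.comp (resStr f ζ) = i)
    (hψ : ψ.comp (resStr f ζ) = i) (h : mapPt φ hφ (resPt f ζ) = mapPt ψ hψ (resPt f ζ)) :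
    φ = ψ := by
  have h1 : Spec.map (CommRingCat.ofHom φ) ≫ A.fromSpecResidueField ζ =
      Spec.map (CommRingCat.ofHom ψ) ≫ A.fromSpecResidueField ζ := congrArg Subtype.val h
  rw [cancel_mono] at h1
  have h2 := Spec.map_injective h1
  exact congrArg CommRingCat.Hom.hom h2

/-- `Pt` is injective along field extensions. -/
theorem mapPt_injective {k k' : Type u} [Field k] [Field k'] {i : K →+* k} {i' : K →+* k'}
    (φ : k →+* k') (h : φ.comp i = i') : Function.Injective (mapPt (f := f) φ h) := by
  intro x y hxy
  have hp : ptOf x = ptOf y := by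
    rw [← ptOf_mapPt φ h x, ← ptOf_mapPt φ h y, hxy]
  obtain ⟨a, ha, hax⟩ := exists_map_resPt x
  obtain ⟨b, hb, hby⟩ := exists_map_resPt y
  generalize ptOf y = ζ at *
  subst hp
  rw [← hax, ← hby] at hxy ⊢
  rw [mapPt_mapPt, mapPt_mapPt] at hxy
  have h1 := mapPt_resPt_injective _ _ _ hxy
  have h2 : a = b := by
    ext z
    exact φ.injective (DFunLike.congr_fun h1 z)
  exact mapPt_congr h2 _ _ _

/-- If a point has the same underlying point as `x`... -/
theorem exists_map_of_ptOf_eq {k : Type u} [Field k] {i : K →+* k} (x : Pt f i) {ζ : A}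
    (hζ : ptOf x = ζ) :
    ∃ (φ : A.residueField ζ →+* k) (h : φ.comp (resStr f ζ) = i),
      mapPt φ h (resPt f ζ) = x := by
  subst hζ
  exact exists_map_resPt x

section Generic

variable [IsIntegral A]

/-- the canonical generic point with values in the function field (the stalk). -/
theorem stalkField_compat (ζ : A) :
    (algebraMap (A.presheaf.stalk ζ) A.functionField).comp (stalkStr f ζ) =
      stalkStr f (genericPoint A) := by
  have h0 : algebraMap (A.presheaf.stalk ζ) A.functionField =
      (A.presheaf.stalkSpecializes (genericPoint_specializes ζ)).hom := rfl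
  have h1 : Spec.map (CommRingCat.ofHom
      ((A.presheaf.stalkSpecializes (genericPoint_specializes ζ)).hom.comp (stalkStr f ζ))) =
        Spec.map (CommRingCat.ofHom (stalkStr f (genericPoint A))) := by
    rw [CommRingCat.ofHom_comp, Spec.map_comp, specMap_stalkStr, specMap_stalkStr,
      CommRingCat.ofHom_hom, ← Category.assoc, Scheme.SpecMap_stalkSpecializes_fromSpecStalk]
  rw [h0]
  exact congrArg CommRingCat.Hom.hom (Spec.map_injective h1)

/-- the residue map of a non-generic point is not injective. -/
theorem residue_not_injective {ζ : A} (hζ : ζ ≠ genericPoint A) :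
    ¬ Function.Injective (A.residue ζ).hom := by
  intro hinj
  apply hζ
  have hmem : genericPoint A ∈ Set.range (A.fromSpecStalk ζ) := by
    rw [Scheme.range_fromSpecStalk]
    exact genericPoint_specializes ζ
  obtain ⟨p, hp⟩ := hmem
  have hfield : IsField (A.presheaf.stalk ζ) := by
    rw [IsLocalRing.isField_iff_maximalIdeal_eq]
    rw [eq_bot_iff]
    intro a ha
    have : (A.residue ζ).hom a = 0 := by
      change IsLocalRing.residue _ a = 0
      rwa [IsLocalRing.residue_eq_zero_iff]
    rw [Ideal.mem_bot]
    exact (injective_iff_map_eq_zero _).1 hinj a this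
  have hsub : p = IsLocalRing.closedPoint (A.presheaf.stalk ζ) := by
    have := hfield
    let _ := hfield.toField
    apply PrimeSpectrum.ext
    have h1 : p.asIdeal = ⊥ := by
      rcases Ideal.eq_bot_or_top p.asIdeal with h | h
      · exact h
      · exact absurd h p.2.ne_top
    have h2 : (IsLocalRing.closedPoint (A.presheaf.stalk ζ)).asIdeal = ⊥ := by
      rcases Ideal.eq_bot_or_top (IsLocalRing.closedPoint (A.presheaf.stalk ζ)).asIdeal with h | h
      · exact h
      · exact absurd h (IsLocalRing.closedPoint (A.presheaf.stalk ζ)).2.ne_top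
    rw [h1, h2]
  rw [hsub, Scheme.fromSpecStalk_closedPoint] at hp
  exact hp

end Generic

end Fermat.Agent.AVN

end
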